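import Fermat.Agent.S55.Bridge.Cyclo

/-!
# S55, global leaf KUM (helper893): Kummer extensions stay unramified outside `S`

Everything is stated in the Prelude's language (`IntermediateField.IsUnramifiedOutside`,
valuation subrings of `ℚ̄`, `inertiaSubgroupIn`).

* `val_natCast_eq_one_of_coprime` : an integer prime to the residue characteristic is a unit.
* `kummer_fixed_of_mem_inertia` : the local core. If `σ` lies in the inertia group of a place
  `A` of residue characteristic `q ∤ n`, `σ` fixes `β ^ n` and `t`, and `v(β) = v(t)`, then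
  `σ β = β`.
* `isUnramifiedOutside_sup_adjoin_root` (**KUM**) : if `F` is unramified outside `S`, all prime
  factors of `n` lie in `S`, `β ^ n ∈ F`, and at every place outside `S` the valuation of `β` is the
  valuation of an element of `F`, then `F(β)` is unramified outside `S`.
* `isUnramifiedOutside_sup_adjoin_root_of_unit` : the case of `S`-units (`E_S` is `n`-divisible).
-/

set_option autoImplicit false
set_option linter.style.haveILetI false

namespace Fermat.Agent.S55.H893

open IntermediateField Fermat.Agent.S55.Bridge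

section local_core

variable {A : ValuationSubring (AlgebraicClosure ℚ)}

/-- An integer prime to the residue characteristic is a unit at `A`. -/
theorem val_natCast_eq_one_of_coprime {q n : ℕ} (hq : A.LiesOverPrime q)
    (hcop : Nat.Coprime q n) : A.valuation (n : AlgebraicClosure ℚ) = 1 := by
  have hq' : A.valuation (q : AlgebraicClosure ℚ) < 1 := (A.mem_nonunits_iff).mp hq
  have hcop' : IsCoprime (q : ℤ) (n : ℤ) := by
    rw [Int.isCoprime_iff_gcd_eq_one, Int.gcd_natCast_natCast]
    exact hcop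
  obtain ⟨u, w, huw⟩ := hcop'
  have h1 : (u : AlgebraicClosure ℚ) * (q : AlgebraicClosure ℚ)
      + (w : AlgebraicClosure ℚ) * (n : AlgebraicClosure ℚ) = 1 := by
    exact_mod_cast congrArg (Int.cast : ℤ → AlgebraicClosure ℚ) huw
  have hsmall : A.valuation ((u : AlgebraicClosure ℚ) * (q : AlgebraicClosure ℚ)) < 1 := by
    rw [map_mul]
    exact (mul_le_of_le_one_left' (val_intCast_le_one u)).trans_lt hq'
  have hwn : A.valuation ((w : AlgebraicClosure ℚ) * (n : AlgebraicClosure ℚ)) = 1 := by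
    have : (w : AlgebraicClosure ℚ) * (n : AlgebraicClosure ℚ)
        = 1 + -((u : AlgebraicClosure ℚ) * (q : AlgebraicClosure ℚ)) := by linear_combination h1
    rw [this, (A.valuation).map_add_eq_of_lt_left
      (by rw [Valuation.map_neg, map_one]; exact hsmall), map_one]
  rw [map_mul] at hwn
  have hp1 : A.valuation (n : AlgebraicClosure ℚ) ≤ 1 := by
    have := val_intCast_le_one (A := A) (n : ℤ)
    rwa [Int.cast_natCast] at this
  refine le_antisymm hp1 ?_
  calc (1 : A.ValueGroup)
      = A.valuation (w : AlgebraicClosure ℚ) * A.valuation (n : AlgebraicClosure ℚ) := hwn.symm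
    _ ≤ 1 * A.valuation (n : AlgebraicClosure ℚ) := mul_le_mul_left (val_intCast_le_one w) _
    _ = A.valuation (n : AlgebraicClosure ℚ) := one_mul _

/-- **Local core of KUM.** Inertia at a place of residue characteristic prime to `n` fixes an
`n`-th root `β` of a fixed element, as soon as the valuation of `β` is attained by a fixed
element. -/
theorem kummer_fixed_of_mem_inertia {n : ℕ} (hn0 : n ≠ 0)
    (hnv : A.valuation (n : AlgebraicClosure ℚ) = 1)
    {σ : AlgebraicClosure ℚ ≃ₐ[ℚ] AlgebraicClosure ℚ} (hσ : σ ∈ A.inertiaSubgroupIn ℚ)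
    {β t : AlgebraicClosure ℚ} (hβ : σ (β ^ n) = β ^ n) (ht : σ t = t)
    (hv : A.valuation β = A.valuation t) : σ β = β := by
  by_cases hβ0 : β = 0
  · rw [hβ0, map_zero]
  have ht0 : t ≠ 0 := by
    intro h
    rw [h, map_zero] at hv
    exact hβ0 ((map_eq_zero _).1 hv)
  by_contra hne
  -- `ζ = σ β / β` is a nontrivial `n`-th root of unity
  have hζ : (σ β / β) ^ n = 1 := by
    rw [div_pow, ← map_pow, hβ, div_self (pow_ne_zero n hβ0)]
  have hζ1 : σ β / β ≠ 1 := fun h => hne ((div_eq_one_iff_eq hβ0).1 h)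
  have h1 : A.valuation (σ β / β - 1) = 1 :=
    val_sub_roots_eq_one (A := A) hn0 hnv hζ (one_pow n) hζ1
  -- `u = β / t` is a unit, so `σ u - u` is small
  have hu : A.valuation (β / t) ≤ 1 := by
    rw [map_div₀, hv, div_self ((map_ne_zero _).2 ht0)]
  have h2 := inertia_val_sub_lt_one A hσ (β / t) hu
  have h3 : σ (β / t) - β / t = (β / t) * (σ β / β - 1) := by
    rw [map_div₀, ht]
    field_simp
  rw [h3, map_mul, h1, mul_one, map_div₀, hv, div_self ((map_ne_zero _).2 ht0)] at h2
  exact lt_irrefl _ h2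

end local_core

section global

variable {S : Finset Nat.Primes}

/-- If every prime factor of `n` lies in `S` and `q ∉ S`, then `n` is a unit at places over `q`. -/
theorem val_natCast_eq_one_of_primeFactors_mem {n : ℕ}
    (hn : ∀ ℓ : Nat.Primes, (ℓ : ℕ) ∣ n → ℓ ∈ S) {q : Nat.Primes} (hq : q ∉ S)
    {A : ValuationSubring (AlgebraicClosure ℚ)} (hA : A.LiesOverPrime (q : ℕ)) :
    A.valuation (n : AlgebraicClosure ℚ) = 1 := by
  apply val_natCast_eq_one_of_coprime hA
  rw [Nat.Prime.coprime_iff_not_dvd q.2]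
  exact fun hdvd => hq (hn q hdvd)

/-- **KUM.** Let `F` be unramified outside `S`, `n ≠ 0` with all prime factors in `S`, and
`β ∈ ℚ̄` with `β ^ n ∈ F` such that at every place `A` of `ℚ̄` over a prime `q ∉ S` the valuation of
`β` is the valuation of an element of `F` (i.e. the principal ideal `(β ^ n)` is locally an
`n`-th power outside `S`). Then `F(β)` is unramified outside `S`. -/
theorem isUnramifiedOutside_sup_adjoin_root
    {F : IntermediateField ℚ (AlgebraicClosure ℚ)} (hF : F.IsUnramifiedOutside S)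
    {n : ℕ} (hn0 : n ≠ 0) (hn : ∀ ℓ : Nat.Primes, (ℓ : ℕ) ∣ n → ℓ ∈ S)
    {β : AlgebraicClosure ℚ} (hβ : β ^ n ∈ F)
    (hloc : ∀ q : Nat.Primes, q ∉ S → ∀ A : ValuationSubring (AlgebraicClosure ℚ),
      A.LiesOverPrime (q : ℕ) → ∃ t ∈ F, A.valuation β = A.valuation t) :
    (F ⊔ ℚ⟮β⟯).IsUnramifiedOutside S := by
  haveI := hF.1
  haveI : FiniteDimensional ℚ ℚ⟮β⟯ :=
    IntermediateField.adjoin.finiteDimensional
      ((AlgebraicClosure.isAlgebraic ℚ).isIntegral.isIntegral β)
  refine ⟨IntermediateField.finiteDimensional_sup F ℚ⟮β⟯, fun q hq A hA σ hσ => ?_⟩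
  have hσF : σ ∈ F.fixingSubgroup := hF.2 q hq A hA hσ
  rw [IntermediateField.fixingSubgroup_sup]
  refine ⟨hσF, ?_⟩
  show σ ∈ ℚ⟮β⟯.fixingSubgroup
  obtain ⟨t, htF, hv⟩ := hloc q hq A hA
  have hfixF : ∀ x ∈ F, σ x = x := fun x hx =>
    (IntermediateField.mem_fixingSubgroup_iff F σ).1 hσF x hx
  have hσβ : σ β = β :=
    kummer_fixed_of_mem_inertia hn0 (val_natCast_eq_one_of_primeFactors_mem hn hq hA) hσ
      (hfixF _ hβ) (hfixF _ htF) hv
  rw [IntermediateField.mem_fixingSubgroup_iff]
  intro x hx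
  -- `x ∈ ℚ⟮β⟯` is fixed by `σ` as `β` is
  have hle : ℚ⟮β⟯ ≤ IntermediateField.fixedField (Subgroup.zpowers σ) := by
    rw [IntermediateField.adjoin_simple_le_iff]
    rintro ⟨τ, hτ⟩
    obtain ⟨k, rfl⟩ := Subgroup.mem_zpowers_iff.1 hτ
    show (σ ^ k) • β = β
    have hstab : σ ∈ MulAction.stabilizer (AlgebraicClosure ℚ ≃ₐ[ℚ] AlgebraicClosure ℚ) β :=
      MulAction.mem_stabilizer_iff.2 hσβ
    exact MulAction.mem_stabilizer_iff.1 (Subgroup.zpow_mem _ hstab k)
  have := hle hx
  exact this ⟨σ, Subgroup.mem_zpowers σ⟩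

/-- **`E_S` is `n`-divisible.** If `β ^ n ∈ F` is a unit at all places outside `S`, then `F(β)` is
unramified outside `S`. -/
theorem isUnramifiedOutside_sup_adjoin_root_of_unit
    {F : IntermediateField ℚ (AlgebraicClosure ℚ)} (hF : F.IsUnramifiedOutside S)
    {n : ℕ} (hn0 : n ≠ 0) (hn : ∀ ℓ : Nat.Primes, (ℓ : ℕ) ∣ n → ℓ ∈ S)
    {β : AlgebraicClosure ℚ} (hβ : β ^ n ∈ F)
    (hunit : ∀ q : Nat.Primes, q ∉ S → ∀ A : ValuationSubring (AlgebraicClosure ℚ),
      A.LiesOverPrime (q : ℕ) → A.valuation (β ^ n) = 1) :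
    (F ⊔ ℚ⟮β⟯).IsUnramifiedOutside S := by
  refine isUnramifiedOutside_sup_adjoin_root hF hn0 hn hβ (fun q hq A hA => ⟨1, F.one_mem, ?_⟩)
  have h := hunit q hq A hA
  rw [map_pow] at h
  rw [map_one]
  exact (pow_eq_one_iff.1 h).resolve_right hn0

end global

end Fermat.Agent.S55.H893
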